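import Mathlib
import Fermat.Agent.LT.T7.H616.ClassModelSpec
import Fermat.Agent.LT.H129.Local

/-!
# Row LT, tower T7, node T7.L2.2 `SpecUpC`, leaf T7.L2.2.N.1.05 `CM616.CommGIC616` (helper887)

OFF-MAIN.  On the functions `ψ` such that `ψ` and `cosetOp H ψ` are right invariant under
`U(𝔑₀)`, the double coset operator of a bad element `g` commutes with the sum of the right
translates by a finite set `H` of elements supported at the place `v = o j` of the orbit.

Proof.  A member of the system is `h = u₁ g u₂`, `u₁, u₂ ∈ U(𝔑₀)`.  Let `u₁''` be the component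
of `u₁` at `v` (an element supported at `v`, again in `U(𝔑₀)`) and `u₁' = u₁ u₁''⁻¹` (trivial at
`v`).  As `g` is trivial at `v`, `h = h₀ u₁'' u₂` with `h₀ = u₁' g` trivial at `v`; hence
`f (x h) = f (x h₀)` for every right `U(𝔑₀)`-invariant `f`, and `h₀` commutes with the elements
supported at `v`.  So
`∑_h ∑_k ψ(x h k) = ∑_h ∑_k ψ(x h₀ k) = ∑_h ∑_k ψ(x k h₀) = ∑_h ∑_k ψ(x k h)`.
-/

set_option autoImplicit false

open IsDedekindDomain NumberField

noncomputable section

namespace Fermat.Agent.LT.T7.H887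

open Fermat.Agent.LT.H556 Fermat.Agent.LT.H556.A0 Fermat.Agent.LT Fermat.Agent.LT.T7
  Fermat.Agent.LT.T7.CM616 Fermat.Agent.LT.H129

section Local

variable {K : Type} [Field K] [NumberField K]

/-- The component at `v` of an element of the level group is in the level group. -/
theorem inLevelGroup_locFin887 {𝔫 : Ideal (𝓞 K)} {u : G K} (hu : InLevelGroup 𝔫 u)
    (v : HeightOneSpectrum (𝓞 K)) : InLevelGroup 𝔫 (locFin129 v (finCompHom129 v u)) := by
  refine ⟨fun w => (trivAtInf_iff129 w _).2 (infCompHom129_locFin129 v _ w), fun v' i j => ?_⟩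
  by_cases h : v' = v
  · subst h
    have e1 : finComp v' (locFin129 v' (finCompHom129 v' u)) = finComp v' u := by
      rw [← coe_finCompHom129, finCompHom129_locFin129, coe_finCompHom129]
    have e2 : finComp v' (locFin129 v' (finCompHom129 v' u))⁻¹ = finComp v' u⁻¹ := by
      rw [← map_inv, ← map_inv, ← coe_finCompHom129, finCompHom129_locFin129,
        coe_finCompHom129]
    rw [e1, e2]
    exact hu.2 v' i j
  · have e1 : finComp v' (locFin129 v (finCompHom129 v u)) = 1 := by
      rw [← coe_finCompHom129, finCompHom129_locFin129_of_ne v _ h]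
      rfl
    have e2 : finComp v' (locFin129 v (finCompHom129 v u))⁻¹ = 1 := by
      rw [← map_inv, ← coe_finCompHom129, finCompHom129_locFin129_of_ne v _ h]
      rfl
    have h0 : (0 : v'.adicCompletion K) ∈ idealClosure 𝔫 v' := by
      apply subset_closure
      exact ⟨0, 𝔫.zero_mem, by simp⟩
    rw [e1, e2, sub_self]
    exact ⟨h0, h0⟩

/-- An element which is trivial at `v` commutes with the elements supported at `v`. -/
theorem commute_of_triv_of_local887 {v : HeightOneSpectrum (𝓞 K)} {a k : G K}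
    (ha : finCompHom129 v a = 1) (hk : IsLocalAtFin v k) : a * k = k * a := by
  rw [isLocalAtFin_iff129] at hk
  apply G_ext129
  · intro w
    rw [map_mul, map_mul, hk.1 w, mul_one, one_mul]
  · intro v'
    by_cases h : v' = v
    · subst h
      rw [map_mul, map_mul, ha, mul_one, one_mul]
    · rw [map_mul, map_mul, hk.2 v' h, mul_one, one_mul]

/-- The reduction of a member `u₁ g u₂` of a double coset system, `g` trivial at `v`: it is
`h₀ u'' u₂` with `h₀` trivial at `v` and `u'', u₂` in the level group. -/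
theorem exists_reduction887 {𝔫 : Ideal (𝓞 K)} {v : HeightOneSpectrum (𝓞 K)} {g u₁ u₂ : G K}
    (hg : TrivAtFin v g) (hu₁ : InLevelGroup 𝔫 u₁) :
    ∃ h₀ u'' : G K, finCompHom129 v h₀ = 1 ∧ InLevelGroup 𝔫 u'' ∧
      u₁ * g * u₂ = h₀ * u'' * u₂ := by
  have hg1 : finCompHom129 v g = 1 := (trivAtFin_iff129 v g).1 hg
  set u'' : G K := locFin129 v (finCompHom129 v u₁) with hu''
  have hloc : IsLocalAtFin v u'' := isLocalAtFin_locFin129 v _
  have hcomm : g * u'' = u'' * g := commute_of_triv_of_local887 hg1 hloc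
  refine ⟨u₁ * u''⁻¹ * g, u'', ?_, inLevelGroup_locFin887 hu₁ v, ?_⟩
  · rw [map_mul, map_mul, map_inv, hg1, mul_one, hu'', finCompHom129_locFin129,
      mul_inv_cancel]
  · rw [mul_assoc (u₁ * u''⁻¹) g u'', hcomm, ← mul_assoc, inv_mul_cancel_right]

end Local

section Leaf

variable (K K' : Type) [Field K] [NumberField K] [Field K'] [NumberField K'] [Algebra K K']

/-- **Leaf T7.L2.2.N.1.05 `CommGIC616`.** -/
theorem commGIC887 : CommGIC616 K K' := by
  intro ℓ Φ Dt hctx g Hg hbad hsys j hj H hH ψ hψ hHψ x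
  have hjl : j < Dt.l := by rw [hctx.data.deg]; exact hj
  have hgv : TrivAtFin (Dt.o j) g := hbad.2 (Dt.o j) (Or.inr ⟨j, hjl, rfl⟩)
  -- the reduction of the members of the system
  have hred : ∀ h ∈ Hg, ∃ h₀ : G K', finCompHom129 (Dt.o j) h₀ = 1 ∧
      ∀ f : G K' → ℂ, IsLevelInv616 Dt.𝔑₀ f → ∀ y : G K', f (y * h) = f (y * h₀) := by
    intro h hh
    obtain ⟨u₁, u₂, hu₁, hu₂, rfl⟩ := hsys.1 h hh
    obtain ⟨h₀, u'', h1, hu'', heq⟩ := exists_reduction887 (u₂ := u₂) hgv hu₁
    refine ⟨h₀, h1, fun f hf y => ?_⟩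
    rw [heq, ← mul_assoc, ← mul_assoc, hf u₂ hu₂, hf u'' hu'']
  show (∑ h ∈ Hg, ∑ k ∈ H, ψ (x * h * k)) = ∑ k ∈ H, ∑ h ∈ Hg, ψ (x * k * h)
  conv_rhs => rw [Finset.sum_comm]
  refine Finset.sum_congr rfl fun h hh => ?_
  obtain ⟨h₀, h1, hinv⟩ := hred h hh
  have e1 : ∑ k ∈ H, ψ (x * h * k) = ∑ k ∈ H, ψ (x * h₀ * k) := hinv (cosetOp H ψ) hHψ x
  rw [e1]
  refine Finset.sum_congr rfl fun k hk => ?_
  have hcomm : h₀ * k = k * h₀ := commute_of_triv_of_local887 h1 (hH k hk)
  rw [hinv ψ hψ (x * k), mul_assoc x h₀ k, hcomm, ← mul_assoc]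

end Leaf

end Fermat.Agent.LT.T7.H887
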