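import Mathlib
import Fermat.Agent.LT.T7.H193.KillSpec

/-!
# Row LT, tower T7, node T7.L2.1 `SupplyC`, leaf T7.L2.1.N08 `TorAvgFixC` (helper887) -- OFF-MAIN

`P_∞ e = e` for a function `e` which is right invariant under the positive scalars at every
infinite place.

Proof: `t = ∑_w Pi.single w (t w)`, `a` is additive, and `a (Pi.single w x)` is a positive scalar
at `w` (`IsTorusData.inf`, `IsTorusData.fin`; the embedding of the completion into `ℂ` is
injective); hence `e (g * a t) = e g` for every `t`, the integrand is constant, and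
`0 < vol D < ∞` (`D` is bounded).
-/

set_option autoImplicit false

open IsDedekindDomain NumberField MeasureTheory

noncomputable section

namespace Fermat.Agent.LT.T7.H887

open Fermat.Agent.LT.H556 Fermat.Agent.LT.H556.A0 Fermat.Agent.LT Fermat.Agent.LT.T7.H193

variable {K : Type} [Field K] [NumberField K]

/-- If the matrix of `z` at `w` (in `ℂ`) is the identity, `z` is trivial at `w`. -/
theorem trivAtInf_of_infComp887 (w : InfinitePlace K) (z : G K) (h : infComp w z = 1) :
    TrivAtInf w z := by
  intro i j
  have hinj : Function.Injective (InfinitePlace.Completion.extensionEmbedding w) :=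
    RingHom.injective _
  apply hinj
  have h1 := congrFun (congrFun h i) j
  simp only [infComp] at h1
  rw [h1]
  by_cases hij : i = j
  · subst hij
    simp
  · simp [hij]

variable {𝔑 : Ideal (𝓞 K)} {r : G K} {a : (InfinitePlace K → ℝ) → G K}
  {D : Set (InfinitePlace K → ℝ)}

/-- `a (Pi.single w x)` is a positive scalar at `w`. -/
theorem isArchPosScalar_single887 [DecidableEq (InfinitePlace K)] (h : IsTorusData 𝔑 r a D)
    (w : InfinitePlace K) (x : ℝ) : IsArchPosScalar w (a (Pi.single w x)) := by
  refine ⟨⟨fun w' hw' => ?_, fun v => h.fin _ v⟩, Real.exp x, Real.exp_pos x, ?_⟩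
  · apply trivAtInf_of_infComp887
    rw [h.inf, Pi.single_eq_of_ne hw', Real.exp_zero]
    ext i j
    by_cases hij : i = j
    · subst hij
      simp
    · simp [hij]
  · rw [h.inf, Pi.single_eq_same]

theorem torus_zero887 (h : IsTorusData 𝔑 r a D) : a 0 = 1 := by
  have h1 := h.mul 0 0
  rw [add_zero] at h1
  have h2 : a 0 * 1 = a 0 * a 0 := by rw [mul_one]; exact h1
  exact (mul_left_cancel h2).symm

/-- Invariance under `a` of a finite sum of coordinate vectors. -/
theorem inv_sum887 [DecidableEq (InfinitePlace K)] (h : IsTorusData 𝔑 r a D) (e : G K → ℂ)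
    (he : ∀ (w : InfinitePlace K) (z : G K), IsArchPosScalar w z → ∀ g : G K, e (g * z) = e g)
    (t : InfinitePlace K → ℝ) (s : Finset (InfinitePlace K)) :
    ∀ g : G K, e (g * a (∑ w ∈ s, Pi.single w (t w))) = e g := by
  induction s using Finset.induction_on with
  | empty =>
    intro g
    rw [Finset.sum_empty, torus_zero887 h, mul_one]
  | insert w s hw ih =>
    intro g
    rw [Finset.sum_insert hw, h.mul, ← mul_assoc, ih,
      he w _ (isArchPosScalar_single887 h w (t w))]

/-- Invariance under every `a t`. -/
theorem inv_torus887 (h : IsTorusData 𝔑 r a D) (e : G K → ℂ)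
    (he : ∀ (w : InfinitePlace K) (z : G K), IsArchPosScalar w z → ∀ g : G K, e (g * z) = e g)
    (t : InfinitePlace K → ℝ) (g : G K) : e (g * a t) = e g := by
  classical
  have h1 := inv_sum887 h e he t Finset.univ g
  rwa [Finset.univ_sum_single] at h1

/-- **Leaf T7.L2.1.N08 `TorAvgFixC`.** -/
theorem torAvgFixC887 (K : Type) [Field K] [NumberField K] : TorAvgFixC K := by
  intro 𝔑 r a D h e he g
  have hconst : ∀ t : InfinitePlace K → ℝ, e (g * a t) = e g := fun t =>
    inv_torus887 h e he t g
  have hlt : volume D < ⊤ := h.bdd.measure_lt_top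
  have hpos : 0 < (volume D).toReal := ENNReal.toReal_pos h.pos.ne' hlt.ne
  have hne : (((volume D).toReal : ℝ) : ℂ) ≠ 0 := by
    exact_mod_cast hpos.ne'
  show (((volume D).toReal : ℝ) : ℂ)⁻¹ * ∫ t in D, e (g * a t) = e g
  simp only [hconst]
  rw [setIntegral_const]
  simp only [Measure.real, Complex.real_smul]
  rw [← mul_assoc, inv_mul_cancel₀ hne, one_mul]

end Fermat.Agent.LT.T7.H887
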