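import Mathlib
import Fermat.Agent.LT.T7.H341.UpDatSpec
import Fermat.Agent.LT.T7.H558.SigmaLoc

/-!
# Row LT, tower T7, node C2.7.13.1.0 `H340.UpDatC340`, leaf UD.3 `UD341.UpArchC341` (helper887)

OFF-MAIN (spare proof).  `upArchC887 K K' : UD341.UpArchC341 K K'`, VERBATIM, unconditional.

`σ` = the generator of `D`, as an element `σ_a` of `Gal(K'/K)` (it fixes `K`: `IsCompData.base`,
`IsCyclicOfDegree.fixed`); `Gal(K'/K)` has prime order `ℓ` and `σ_a ≠ 1`, so every element is a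
power of `σ_a`.  `w₀` a place over `v`, `w a = w₀ ∘ σ^a` (`= (σ_a^a)⁻¹ • w₀`).  `exh`: the Galois
group is transitive on the fibre.  `inj`: `v` is complex, so `w₀` is unramified and its
stabiliser is trivial.  `d a` = the type of `ι` at `w a` (`IsAdeleBase305.inf`).  `sig`:
`SigmaLocC305 K'` (closed by helper558) at `w a` gives `(σ_𝔸 x)_{w a} = c (x_{w (a+1)})`, `c` the
identity or the conjugation; on `ι z`, `z` rational with a non-real image at `v`, the relation
`σ_𝔸 ι = ι` gives `d a u = c (d (a+1) u)` for a non-real `u`, which fixes `c`.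
-/

set_option autoImplicit false
set_option linter.unusedSectionVars false
set_option linter.style.haveILetI false

open AutomorphicForm IsDedekindDomain NumberField MeasureTheory
open scoped ComplexConjugate

noncomputable section

namespace Fermat.Agent.LT.T7.H887

open Fermat.Agent.LT.H556 Fermat.Agent.LT.H556.A0 Fermat.Agent.LT.T7 Fermat.Agent.LT.T7.H305
open Fermat.Agent.LT.T7.H340 Fermat.Agent.LT.T7.UD341

section Orbit

variable {K K' : Type} [Field K] [NumberField K] [Field K'] [NumberField K'] [Algebra K K']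

/-- The places `w₀ ∘ σ^a`. -/
def archW887 (σ : K' ≃+* K') (w₀ : InfinitePlace K') : ℕ → InfinitePlace K'
  | 0 => w₀
  | (a + 1) => (archW887 σ w₀ a).comap (σ : K' →+* K')

theorem archW_succ887 (σ : K' ≃+* K') (w₀ : InfinitePlace K') (a : ℕ) :
    archW887 σ w₀ (a + 1) = (archW887 σ w₀ a).comap (σ : K' →+* K') := rfl

theorem archW_apply887 (σ : K' ≃+* K') (w₀ : InfinitePlace K') (a : ℕ) (x : K') :
    archW887 σ w₀ a x = w₀ (σ^[a] x) := by
  induction a generalizing x with
  | zero => rfl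
  | succ a ih =>
    rw [archW_succ887, InfinitePlace.comap_apply, Function.iterate_succ_apply]
    exact ih (σ x)

theorem ringAut_pow_apply887 (σ : K' ≃+* K') (n : ℕ) (x : K') : (σ ^ n) x = σ^[n] x := by
  induction n generalizing x with
  | zero => rfl
  | succ n ih =>
    rw [pow_succ, Function.iterate_succ_apply]
    exact ih (σ x)

theorem algEquiv_pow_apply887 (τ : K' ≃ₐ[K] K') (n : ℕ) (x : K') : (τ ^ n) x = τ^[n] x := by
  induction n generalizing x with
  | zero => rfl
  | succ n ih =>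
    rw [pow_succ, Function.iterate_succ_apply, AlgEquiv.mul_apply]
    exact ih (τ x)

/-- The orbit in terms of the Galois action. -/
theorem archW_eq_smul887 (σ : K' ≃+* K') (τ : K' ≃ₐ[K] K') (hτ : ∀ x : K', τ x = σ x)
    (w₀ : InfinitePlace K') (a : ℕ) : archW887 σ w₀ a = (τ ^ a)⁻¹ • w₀ := by
  refine InfinitePlace.ext _ _ fun x => ?_
  rw [archW_apply887, InfinitePlace.smul_apply]
  show w₀ (σ^[a] x) = w₀ ((τ ^ a) x)
  rw [algEquiv_pow_apply887]
  congr 1
  induction a generalizing x with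
  | zero => rfl
  | succ a ih =>
    rw [Function.iterate_succ_apply, Function.iterate_succ_apply, hτ]
    exact ih (σ x)

/-- The two types commute and are involutions: the type of `σ_𝔸` is fixed by a non-real value. -/
theorem type_rel887 (d₁ d₂ c : ℂ →+* ℂ) (h₁ : d₁ = RingHom.id ℂ ∨ d₁ = starRingEnd ℂ)
    (h₂ : d₂ = RingHom.id ℂ ∨ d₂ = starRingEnd ℂ) (hc : c = RingHom.id ℂ ∨ c = starRingEnd ℂ)
    (u : ℂ) (hu : conj u ≠ u) (h : d₁ u = c (d₂ u)) (t : ℂ) : d₁ (c t) = d₂ t := by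
  rcases h₁ with rfl | rfl <;> rcases h₂ with rfl | rfl <;> rcases hc with rfl | rfl
  · rfl
  · exact absurd h.symm hu
  · exact absurd h.symm hu
  · rfl
  · exact absurd h hu
  · exact Complex.conj_conj t
  · rfl
  · exact absurd (h.trans (Complex.conj_conj u)) hu

end Orbit

section Leaf

variable (K K' : Type) [Field K] [NumberField K] [Field K'] [NumberField K'] [Algebra K K']

/-- **LEAF UD.3 = UP-ARCH**, verbatim. -/
theorem upArchC887 : UpArchC341 K K' := by
  classical
  intro D hD hcyc htc ι hι v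
  have hℓ : D.l.Prime := hcyc.prime
  have hℓpos : 0 < D.l := hℓ.pos
  haveI : IsGalois K K' := hcyc.galois
  haveI : FiniteDimensional K K' :=
    Module.finite_of_finrank_pos (by rw [hcyc.degree]; exact hℓpos)
  haveI : Fact D.l.Prime := ⟨hℓ⟩
  -- the generator as an element of the Galois group
  have hfix : ∀ y : K, D.s.σ (algebraMap K K' y) = algebraMap K K' y := fun y =>
    (hD.cyc.fixed _).mp ((hD.base _).mpr ⟨y, rfl⟩)
  set τ : K' ≃ₐ[K] K' := AlgEquiv.ofRingEquiv (f := D.s.σ) hfix with hτdef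
  have hτ : ∀ x : K', τ x = D.s.σ x := fun _ => rfl
  have hτpow : ∀ (n : ℕ) (x : K'), (τ ^ n) x = (D.s.σ ^ n) x := by
    intro n x
    rw [algEquiv_pow_apply887, ringAut_pow_apply887]
    induction n generalizing x with
    | zero => rfl
    | succ n ih =>
      rw [Function.iterate_succ_apply, Function.iterate_succ_apply, hτ]
      exact ih _
  have hτℓ : τ ^ D.l = 1 := by
    refine AlgEquiv.ext fun x => ?_
    rw [hτpow, hD.cyc.pow_eq]
    rfl
  have hτne : ∀ j : ℕ, 0 < j → j < D.l → τ ^ j ≠ 1 := by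
    intro j hj hjl h
    obtain ⟨x, hx⟩ := hD.cyc.faithful j hj hjl
    apply hx
    rw [← hτpow, h]
    rfl
  have hτ1 : τ ≠ 1 := by
    have h := hτne 1 Nat.one_pos hℓ.one_lt
    rwa [pow_one] at h
  have hcard : Nat.card (K' ≃ₐ[K] K') = D.l := by
    rw [IsGalois.card_aut_eq_finrank, hcyc.degree]
  have htop : Subgroup.zpowers τ = ⊤ := zpowers_eq_top_of_prime_card hcard hτ1
  -- a place over `v`
  obtain ⟨w₀, hw₀⟩ := InfinitePlace.comap_surjective (k := K) (K := K') v
  have hw₀' : w₀.comap (algebraMap K K') = v := hw₀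
  set w : ℕ → InfinitePlace K' := archW887 D.s.σ w₀ with hwdef
  have hwsmul : ∀ a : ℕ, w a = (τ ^ a)⁻¹ • w₀ := fun a =>
    archW_eq_smul887 D.s.σ τ hτ w₀ a
  have hovr : ∀ a : ℕ, (w a).comap (algebraMap K K') = v := by
    intro a
    rw [hwsmul, InfinitePlace.smul_eq_comap, ← InfinitePlace.comap_comp]
    rw [← hw₀']
    congr 1
    refine RingHom.ext fun y => ?_
    show ((τ ^ a)⁻¹).symm (algebraMap K K' y) = algebraMap K K' y
    exact AlgEquiv.commutes _ y
  have hper : ∀ n : ℕ, w (n % D.l) = w n := by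
    intro n
    rw [hwsmul, hwsmul, ← pow_eq_pow_mod n hτℓ]
  -- the stabiliser of `w₀` is trivial
  have hstab : MulAction.stabilizer (K' ≃ₐ[K] K') w₀ = ⊥ := by
    refine (InfinitePlace.isUnramified_iff_stabilizer_eq_bot (k := K) (w := w₀)).mp ?_
    refine InfinitePlace.isUnramified_iff.mpr (Or.inr ?_)
    rw [hw₀']
    exact htc v
  have hinj0 : ∀ a a' : ℕ, a < a' → a' < D.l → w a ≠ w a' := by
    intro a a' haa' ha' h
    rw [hwsmul, hwsmul] at h
    have h1 : (τ ^ a' * (τ ^ a)⁻¹) • w₀ = w₀ := by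
      rw [mul_smul, h, smul_smul, mul_inv_cancel, one_smul]
    have h2 : τ ^ a' * (τ ^ a)⁻¹ ∈ MulAction.stabilizer (K' ≃ₐ[K] K') w₀ :=
      MulAction.mem_stabilizer_iff.mpr h1
    rw [hstab, Subgroup.mem_bot] at h2
    have h3 : τ ^ (a' - a) = 1 := by
      have h4 : τ ^ a' = τ ^ (a' - a) * τ ^ a := by
        rw [← pow_add, Nat.sub_add_cancel haa'.le]
      rw [h4, mul_inv_cancel_right] at h2
      exact h2
    exact hτne (a' - a) (Nat.sub_pos_of_lt haa') (lt_of_le_of_lt (Nat.sub_le _ _) ha') h3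
  -- the types
  have hdex : ∀ a : ℕ, ∃ da : ℂ →+* ℂ, (da = RingHom.id ℂ ∨ da = starRingEnd ℂ) ∧
      ∀ x : Adl K, T5.infHom (w a) (ι x) = da (T5.infHom v x) := by
    intro a
    rcases hι.inf (w a) with h | h
    · refine ⟨RingHom.id ℂ, Or.inl rfl, fun x => ?_⟩
      rw [h x, hovr a]
      rfl
    · refine ⟨starRingEnd ℂ, Or.inr rfl, fun x => ?_⟩
      rw [h x, hovr a]
  choose d htyp hiot using hdex
  -- a rational element with a non-real image at `v`
  have hnr : ∃ z : Adl K, conj (T5.infHom v z) ≠ T5.infHom v z := by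
    have hv : ¬ ComplexEmbedding.IsReal v.embedding := InfinitePlace.isComplex_iff.mp (htc v)
    rw [ComplexEmbedding.isReal_iff] at hv
    have : ∃ y : K, conj (v.embedding y) ≠ v.embedding y := by
      by_contra hcon
      exact hv (RingHom.ext fun y => by_contra fun hne => hcon ⟨y, hne⟩)
    obtain ⟨y, hy⟩ := this
    refine ⟨algebraMap K (Adl K) y, ?_⟩
    have h1 : T5.infHom v (algebraMap K (Adl K) y) = v.embedding y :=
      H558.ext_coe558 v y
    rw [h1]
    exact hy
  obtain ⟨z, hz⟩ := hnr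
  refine ⟨⟨w, d⟩, ⟨hℓpos, hovr, fun a => rfl, ?_, htyp, hiot, ?_, ?_⟩⟩
  · -- inj
    intro a a' ha ha' h
    rcases lt_trichotomy a a' with h1 | h1 | h1
    · exact absurd h (hinj0 a a' h1 ha')
    · exact h1
    · exact absurd h.symm (hinj0 a' a h1 ha)
  · -- exh
    intro w' hw'
    obtain ⟨ρ, hρ⟩ := InfinitePlace.exists_smul_eq_of_comap_eq (k := K)
      (w := w₀) (w' := w') (by rw [hw₀', hw'])
    have hρmem : ρ ∈ Subgroup.zpowers τ := by
      rw [htop]
      exact Subgroup.mem_top ρ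
    obtain ⟨k, hk⟩ := Subgroup.mem_zpowers_iff.mp hρmem
    have hℓZ : (0 : ℤ) < (D.l : ℤ) := by exact_mod_cast hℓpos
    refine ⟨((-k) % (D.l : ℤ)).toNat, ?_, ?_⟩
    · have h1 : (-k) % (D.l : ℤ) < (D.l : ℤ) := Int.emod_lt_of_pos _ hℓZ
      have h2 : 0 ≤ (-k) % (D.l : ℤ) := Int.emod_nonneg _ hℓZ.ne'
      omega
    · have h2 : 0 ≤ (-k) % (D.l : ℤ) := Int.emod_nonneg _ hℓZ.ne'
      have h3 : τ ^ ((-k) % (D.l : ℤ)).toNat = τ ^ (-k) := by
        rw [← zpow_natCast, Int.toNat_of_nonneg h2]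
        have h4 : τ ^ (D.l : ℤ) = 1 := by rw [zpow_natCast, hτℓ]
        exact (zpow_eq_zpow_emod (-k) h4).symm
      show w' = w ((-k) % (D.l : ℤ)).toNat
      rw [hwsmul, h3, zpow_neg, inv_inv, hk, hρ]
  · -- sig
    intro a x
    have hσ := (H558.sigmaLocC558 (K := K') D.s).2 (w a.1)
    have hw1 : (w a.1).comap (D.s.σ : K' →+* K') = w (cycSucc340 a).1 := by
      show w (a.1 + 1) = w ((a.1 + 1) % D.l)
      exact (hper (a.1 + 1)).symm
    rw [hw1] at hσ
    -- the type `c` of `σ_𝔸` at `w a`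
    obtain ⟨c, hc, hcσ⟩ : ∃ c : ℂ →+* ℂ, (c = RingHom.id ℂ ∨ c = starRingEnd ℂ) ∧
        ∀ y : Adl K', T5.infHom (w a.1) (D.s.σA y) = c (T5.infHom (w (cycSucc340 a).1) y) := by
      rcases hσ with h | h
      · exact ⟨RingHom.id ℂ, Or.inl rfl, h⟩
      · exact ⟨starRingEnd ℂ, Or.inr rfl, h⟩
    have hrel : d a.1 (T5.infHom v z) = c (d (cycSucc340 a).1 (T5.infHom v z)) := by
      rw [← hiot a.1 z, ← hiot (cycSucc340 a).1 z, ← hcσ (ι z), hι.fixed z]
    rw [hcσ x]
    exact type_rel887 (d a.1) (d (cycSucc340 a).1) c (htyp _) (htyp _) hc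
      (T5.infHom v z) hz hrel _

end Leaf

end Fermat.Agent.LT.T7.H887
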